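import Mathlib.RingTheory.MvPowerSeries.Equiv
import Mathlib.RingTheory.MvPowerSeries.Inverse
import Mathlib.RingTheory.PowerSeries.Inverse
import Mathlib.RingTheory.PowerSeries.Ideal
import Mathlib.RingTheory.Regular.RegularSequence
import Mathlib.RingTheory.LocalRing.RingHom.Basic
import Mathlib.RingTheory.DiscreteValuationRing.Basic

/-!
# Regular systems of parameters for power series rings
-/

set_option autoImplicit false

open RingTheory.Sequence IsLocalRing Pointwise

universe u

namespace Fermat.Agent.CommAlg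

theorem powerSeries_isSMulRegular_X (B : Type u) [CommRing B] :
    IsSMulRegular (PowerSeries B) (PowerSeries.X : PowerSeries B) := by
  intro a b hab
  simp only [smul_eq_mul] at hab
  ext n
  have := congrArg (PowerSeries.coeff (n + 1)) hab
  simpa [PowerSeries.coeff_succ_X_mul] using this

theorem powerSeries_isWeaklyRegular {B : Type u} [CommRing B] (rs : List B)
    (h : IsWeaklyRegular B rs) :
    IsWeaklyRegular (PowerSeries B) (PowerSeries.X :: rs.map (PowerSeries.C : B →+* _)) := by
  rw [isWeaklyRegular_cons_iff]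
  refine ⟨powerSeries_isSMulRegular_X B, ?_⟩
  let f : PowerSeries B →+ B := (PowerSeries.constantCoeff (R := B)).toAddMonoidHom
  have hfs : Function.Surjective f := PowerSeries.constantCoeff_surj
  have hker : ((PowerSeries.X : PowerSeries B) • (⊤ : Submodule (PowerSeries B) (PowerSeries B))).toAddSubgroup
      = f.ker := by
    ext a
    rw [Submodule.mem_toAddSubgroup, Submodule.mem_smul_pointwise_iff_exists, AddMonoidHom.mem_ker]
    constructor
    · rintro ⟨b, -, rfl⟩
      simp [f]
    · intro ha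
      have ha' : PowerSeries.constantCoeff a = 0 := ha
      rw [← PowerSeries.X_dvd_iff] at ha'
      obtain ⟨b, rfl⟩ := ha'
      exact ⟨b, trivial, rfl⟩
  let e : QuotSMulTop (PowerSeries.X : PowerSeries B) (PowerSeries B) ≃+ B :=
    (QuotientAddGroup.quotientAddEquivOfEq hker).trans
      (QuotientAddGroup.quotientKerEquivOfSurjective f hfs)
  have he : ∀ a : PowerSeries B, e (Submodule.Quotient.mk a) = PowerSeries.constantCoeff a :=
    fun a => rfl
  refine (e.isWeaklyRegular_congr (bs := rs) ?_).2 h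
  rw [List.forall₂_map_left_iff]
  refine List.forall₂_same.2 fun r _ x => ?_
  obtain ⟨x, rfl⟩ := Submodule.Quotient.mk_surjective _ x
  rw [← Submodule.Quotient.mk_smul, he, he]
  simp

theorem powerSeries_maximalIdeal {B : Type u} [CommRing B] [IsLocalRing B] (rs : List B)
    (h : Ideal.ofList rs = maximalIdeal B) :
    Ideal.ofList (PowerSeries.X :: rs.map (PowerSeries.C : B →+* _)) =
      maximalIdeal (PowerSeries B) := by
  have hmem : ∀ f : PowerSeries B, f ∈ maximalIdeal (PowerSeries B) ↔
      PowerSeries.constantCoeff f ∈ maximalIdeal B := by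
    intro f
    rw [mem_maximalIdeal, mem_maximalIdeal, mem_nonunits_iff, mem_nonunits_iff,
      PowerSeries.isUnit_iff_constantCoeff]
  rw [Ideal.ofList_cons, ← Ideal.map_ofList, h]
  apply le_antisymm
  · refine sup_le ?_ ?_
    · rw [Ideal.span_singleton_le_iff_mem, hmem]; simp
    · rw [Ideal.map_le_iff_le_comap]
      intro b hb
      rw [Ideal.mem_comap, hmem]
      simpa using hb
  · intro f hf
    rw [hmem] at hf
    rw [f.eq_X_mul_shift_add_const]
    exact Ideal.add_mem _ (Ideal.mem_sup_left (Ideal.mul_mem_right _ _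
      (Ideal.mem_span_singleton_self _))) (Ideal.mem_sup_right (Ideal.mem_map_of_mem _ hf))

/-- the standard system of parameters of `𝒪⟦X_0,…,X_{r-1}⟧` -/
noncomputable def stdPar {O : Type u} [CommRing O] (ϖ : O) (r : ℕ) :
    List (MvPowerSeries (Fin r) O) :=
  List.ofFn (fun i : Fin r => (MvPowerSeries.X i : MvPowerSeries (Fin r) O)) ++
    [MvPowerSeries.C ϖ]

theorem length_stdPar {O : Type u} [CommRing O] (ϖ : O) (r : ℕ) :
    (stdPar ϖ r).length = r + 1 := by
  simp [stdPar]

theorem map_finSuccEquiv_stdPar {O : Type u} [CommRing O] (ϖ : O) (r : ℕ) :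
    (stdPar ϖ (r + 1)).map (MvPowerSeries.finSuccEquiv O r) =
      PowerSeries.X :: (stdPar ϖ r).map (PowerSeries.C : MvPowerSeries (Fin r) O →+* _) := by
  simp only [stdPar, List.ofFn_succ, List.map_append, List.cons_append, List.map_cons,
    MvPowerSeries.finSuccEquiv_X_zero, List.map_ofFn, List.map_nil,
    MvPowerSeries.finSuccEquiv_C]
  congr 2
  · congr 1
    funext i
    simp

theorem isWeaklyRegular_of_ringEquiv {A A' : Type u} [CommRing A] [CommRing A'] (e : A ≃+* A')
    (rs : List A) (rs' : List A') (hl : rs.map e = rs') :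
    IsWeaklyRegular A rs ↔ IsWeaklyRegular A' rs' := by
  subst hl
  refine (e.toAddEquiv.isWeaklyRegular_congr (as := rs) (bs := rs.map e) ?_)
  rw [List.forall₂_map_right_iff]
  refine List.forall₂_same.2 fun r _ x => ?_
  show e (r • x) = e r • e x
  simp

theorem maximalIdeal_of_ringEquiv {A A' : Type u} [CommRing A] [CommRing A'] [IsLocalRing A]
    [IsLocalRing A'] (e : A ≃+* A') (rs : List A) (rs' : List A') (hl : rs.map e = rs')
    (h : Ideal.ofList rs' = maximalIdeal A') : Ideal.ofList rs = maximalIdeal A := by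
  subst hl
  have h3 : (Ideal.ofList rs).map (e : A →+* A') = (maximalIdeal A).map (e : A →+* A') := by
    have h4 : (maximalIdeal A).map (e : A →+* A') = maximalIdeal A' := map_ringEquiv_maximalIdeal e
    rw [h4, ← h]
    exact Ideal.map_ofList (e : A →+* A') _
  have := congrArg (Ideal.comap (e : A →+* A')) h3
  have hb : Function.Bijective (e : A →+* A') := e.bijective
  rwa [Ideal.comap_map_of_bijective _ hb, Ideal.comap_map_of_bijective _ hb] at this

theorem stdPar_isWeaklyRegular_and_maximalIdeal {O : Type u} [CommRing O] [IsLocalRing O]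
    (ϖ : O) (h1 : IsSMulRegular O ϖ) (h2 : Ideal.span {ϖ} = maximalIdeal O) (r : ℕ) :
    IsWeaklyRegular (MvPowerSeries (Fin r) O) (stdPar ϖ r) ∧
      Ideal.ofList (stdPar ϖ r) = maximalIdeal (MvPowerSeries (Fin r) O) := by
  induction r with
  | zero =>
    let e : MvPowerSeries (Fin 0) O ≃+* O := (MvPowerSeries.isEmptyEquiv (Fin 0) O).toRingEquiv
    have hl : (stdPar ϖ 0).map e = [ϖ] := by
      simp [stdPar, e]
    refine ⟨(isWeaklyRegular_of_ringEquiv e _ _ hl).2 ?_, maximalIdeal_of_ringEquiv e _ _ hl ?_⟩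
    · rw [isWeaklyRegular_cons_iff]
      exact ⟨h1, IsWeaklyRegular.nil _ _⟩
    · rw [Ideal.ofList_singleton, h2]
  | succ r ih =>
    have hl := map_finSuccEquiv_stdPar ϖ r
    exact ⟨(isWeaklyRegular_of_ringEquiv (MvPowerSeries.finSuccEquiv O r).toRingEquiv _ _ hl).2
      (powerSeries_isWeaklyRegular _ ih.1),
      maximalIdeal_of_ringEquiv (MvPowerSeries.finSuccEquiv O r).toRingEquiv _ _ hl
      (powerSeries_maximalIdeal _ ih.2)⟩

theorem stdPar_dvr {O : Type u} [CommRing O] [IsDomain O] [IsDiscreteValuationRing O] (r : ℕ) :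
    ∃ ϖ : O, Ideal.span {ϖ} = maximalIdeal O ∧
    IsWeaklyRegular (MvPowerSeries (Fin r) O) (stdPar ϖ r) ∧
      Ideal.ofList (stdPar ϖ r) = maximalIdeal (MvPowerSeries (Fin r) O) := by
  obtain ⟨ϖ, hϖ⟩ := IsDiscreteValuationRing.exists_irreducible O
  refine ⟨ϖ, hϖ.maximalIdeal_eq.symm, stdPar_isWeaklyRegular_and_maximalIdeal ϖ ?_
    hϖ.maximalIdeal_eq.symm r⟩
  intro a b hab
  exact mul_left_cancel₀ hϖ.ne_zero hab

end Fermat.Agent.CommAlg
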