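import Mathlib.RingTheory.Regular.Free
import Mathlib.RingTheory.Regular.ProjectiveDimension
import Mathlib.RingTheory.LocalRing.RingHom.Basic
import Mathlib.RingTheory.Ideal.Quotient.Noetherian

/-!
# Finite global dimension of local rings whose maximal ideal is generated by a regular sequence,
and freeness of maximal Cohen-Macaulay modules over them.
-/

set_option autoImplicit false

open RingTheory.Sequence IsLocalRing Pointwise

universe u

namespace Fermat.Agent.CommAlg

/-- `SyzLE A m M`: the module `M` has a resolution of length at most `m` whose terms are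
finite free modules (except possibly the last syzygy, which is free). -/
def SyzLE (A : Type u) [CommRing A] :
    ℕ → ∀ (M : Type u) [AddCommGroup M] [Module A M], Prop
  | 0, M, _, _ => Module.Free A M
  | (m + 1), M, _, _ => ∃ (k : ℕ) (f : (Fin k → A) →ₗ[A] M),
      Function.Surjective f ∧ SyzLE A m (LinearMap.ker f)

theorem SyzLE.of_equiv {A : Type u} [CommRing A] :
    ∀ (m : ℕ) {M M' : Type u} [AddCommGroup M] [Module A M] [AddCommGroup M'] [Module A M']
      (_ : M ≃ₗ[A] M') (_ : SyzLE A m M), SyzLE A m M'
  | 0, M, M', _, _, _, _, e, h => by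
    have h' : Module.Free A M := h
    exact Module.Free.of_equiv e
  | (m + 1), M, M', _, _, _, _, e, h => by
    obtain ⟨k, f, hf, hk⟩ := h
    refine ⟨k, e.toLinearMap.comp f, e.surjective.comp hf, ?_⟩
    rw [LinearEquiv.ker_comp]
    exact hk

section

variable {A : Type u} [CommRing A] (x : A) {K : Type u} [AddCommGroup K] [Module A K]

theorem mk_quotSMulTop_eq_zero_iff (y : K) :
    (Submodule.Quotient.mk y : QuotSMulTop x K) = 0 ↔ ∃ z : K, x • z = y := by
  rw [Submodule.Quotient.mk_eq_zero, Submodule.mem_smul_pointwise_iff_exists]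
  simp

/-- key change-of-rings statement for syzygies -/
theorem SyzLE.of_quotSMulTop [IsNoetherianRing A] (hx : x ∈ (⊥ : Ideal A).jacobson)
    (hxA : IsSMulRegular A x) :
    ∀ (m : ℕ) (K : Type u) [AddCommGroup K] [Module A K] [Module.Finite A K]
      (_ : IsSMulRegular K x) (_ : SyzLE (A ⧸ Ideal.span {x}) m (QuotSMulTop x K)),
      SyzLE A m K
  | 0, K, _, _, _, hK, h => by
    have h' : Module.Free (A ⧸ Ideal.span {x}) (QuotSMulTop x K) := h
    have := Module.finitePresentation_of_finite A K
    exact (Module.free_quotSMulTop_iff_free A K hx hK).1 h'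
  | (m + 1), K, _, _, _, hK, h => by
    obtain ⟨k, fbar, hfbar, hker⟩ := h
    -- lift
    have hlift : ∀ i : Fin k, ∃ v : K,
        (Submodule.Quotient.mk v : QuotSMulTop x K) = fbar (Pi.single i 1) := fun i =>
      Submodule.Quotient.mk_surjective _ _
    choose v hv using hlift
    let f : (Fin k → A) →ₗ[A] K := Fintype.linearCombination A v
    have hf : ∀ c : Fin k → A, (Submodule.Quotient.mk (f c) : QuotSMulTop x K) =
        fbar (fun i => Ideal.Quotient.mk (Ideal.span {x}) (c i)) := by
      intro c
      have h1 : (fun i => Ideal.Quotient.mk (Ideal.span {x}) (c i)) =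
          ∑ i, (Ideal.Quotient.mk (Ideal.span {x}) (c i)) •
            (Pi.single i 1 : Fin k → A ⧸ Ideal.span {x}) := by
        ext j
        simp [Finset.sum_apply, Pi.single_apply]
      rw [h1, map_sum]
      simp only [f, Fintype.linearCombination_apply, map_smul]
      rw [← Submodule.mkQ_apply, map_sum]
      refine Finset.sum_congr rfl fun i _ => ?_
      rw [map_smul, Submodule.mkQ_apply, hv i]
      rfl
    have hsurj : Function.Surjective f := by
      apply f.surjective_of_surjective_comp_mkQ (Ideal.span {x}) (by simpa using hx)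
      rw [Submodule.ideal_span_singleton_smul x ⊤]
      intro y
      obtain ⟨cbar, hc⟩ := hfbar y
      have : ∀ i, ∃ c : A, Ideal.Quotient.mk (Ideal.span {x}) c = cbar i := fun i =>
        Ideal.Quotient.mk_surjective _
      choose c hc' using this
      refine ⟨c, ?_⟩
      rw [LinearMap.comp_apply, Submodule.mkQ_apply, hf c, ← hc]
      congr 1
      ext i
      exact hc' i
    refine ⟨k, f, hsurj, ?_⟩
    -- regularity on the kernel
    have hregker : IsSMulRegular (LinearMap.ker f) x := by
      intro a b hab
      have h2 : x • (a : Fin k → A) = x • (b : Fin k → A) := congrArg Subtype.val hab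
      apply Subtype.ext
      funext i
      exact hxA (congrFun h2 i)
    -- the comparison map
    let g : LinearMap.ker f →ₗ[A] LinearMap.ker fbar :=
      { toFun := fun c => ⟨fun i => Ideal.Quotient.mk (Ideal.span {x}) (c.1 i), by
          rw [LinearMap.mem_ker, ← hf c.1, LinearMap.mem_ker.1 c.2]; rfl⟩
        map_add' := fun a b => by
          apply Subtype.ext; funext i; simp
        map_smul' := fun a b => by
          apply Subtype.ext; funext i
          simp [Algebra.smul_def] }
    have hgsurj : Function.Surjective g := by
      intro cbar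
      have : ∀ i, ∃ c : A, Ideal.Quotient.mk (Ideal.span {x}) c = cbar.1 i := fun i =>
        Ideal.Quotient.mk_surjective _
      choose c hc' using this
      have h0 : (Submodule.Quotient.mk (f c) : QuotSMulTop x K) = 0 := by
        rw [hf c]
        have : (fun i => Ideal.Quotient.mk (Ideal.span {x}) (c i)) = cbar.1 := by
          ext i; exact hc' i
        rw [this]
        exact LinearMap.mem_ker.1 cbar.2
      obtain ⟨z, hz⟩ := (mk_quotSMulTop_eq_zero_iff x _).1 h0
      obtain ⟨c'', rfl⟩ := hsurj z
      refine ⟨⟨c - x • c'', by rw [LinearMap.mem_ker, map_sub, map_smul, hz, sub_self]⟩, ?_⟩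
      apply Subtype.ext; funext i
      have hx0 : (Ideal.Quotient.mk (Ideal.span {x})) x = 0 :=
        Ideal.Quotient.eq_zero_iff_mem.2 (Ideal.mem_span_singleton_self x)
      simp [g, hc', hx0]
    have hgker : LinearMap.ker g = x • (⊤ : Submodule A (LinearMap.ker f)) := by
      apply le_antisymm
      · intro c hc
        rw [LinearMap.mem_ker] at hc
        have h3 : ∀ i, ∃ d : A, c.1 i = x * d := by
          intro i
          have h4 : Ideal.Quotient.mk (Ideal.span {x}) (c.1 i) = 0 :=
            congrFun (congrArg Subtype.val hc) i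
          rw [Ideal.Quotient.eq_zero_iff_mem, Ideal.mem_span_singleton] at h4
          exact h4
        choose d hd using h3
        have hcd : c.1 = x • d := by funext i; simpa using hd i
        have hd0 : f d = 0 := by
          apply hK
          show x • f d = x • 0
          rw [smul_zero, ← map_smul, ← hcd]
          exact LinearMap.mem_ker.1 c.2
        rw [Submodule.mem_smul_pointwise_iff_exists]
        exact ⟨⟨d, LinearMap.mem_ker.2 hd0⟩, trivial, Subtype.ext hcd.symm⟩
      · intro c hc
        rw [Submodule.mem_smul_pointwise_iff_exists] at hc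
        obtain ⟨d, -, rfl⟩ := hc
        rw [LinearMap.mem_ker]
        apply Subtype.ext; funext i
        have hx0 : (Ideal.Quotient.mk (Ideal.span {x})) x = 0 :=
          Ideal.Quotient.eq_zero_iff_mem.2 (Ideal.mem_span_singleton_self x)
        simp [g, Algebra.smul_def, hx0]
    let e0 : QuotSMulTop x (LinearMap.ker f) ≃ₗ[A] LinearMap.ker fbar :=
      (Submodule.quotEquivOfEq _ _ hgker.symm).trans (g.quotKerEquivOfSurjective hgsurj)
    let e1 : QuotSMulTop x (LinearMap.ker f) ≃ₗ[A ⧸ Ideal.span {x}] LinearMap.ker fbar :=
      e0.extendScalarsOfSurjective Ideal.Quotient.mk_surjective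
    exact SyzLE.of_quotSMulTop hx hxA m (LinearMap.ker f) hregker
      (SyzLE.of_equiv m e1.symm hker)

end

/-- Noetherian local rings with maximal ideal generated by a regular sequence of length `n`
have global dimension at most `n`. -/
theorem syzLE_of_isWeaklyRegular : ∀ (n : ℕ) (A : Type u) [CommRing A] [IsNoetherianRing A]
    [IsLocalRing A] (rs : List A) (_ : rs.length = n) (_ : IsWeaklyRegular A rs)
    (_ : Ideal.ofList rs = maximalIdeal A)
    (M : Type u) [AddCommGroup M] [Module A M] [Module.Finite A M], SyzLE A n M
  | 0, A, _, _, _, rs, hlen, _, hmax, M, _, _, _ => by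
    obtain rfl := List.length_eq_zero_iff.1 hlen
    rw [Ideal.ofList_nil] at hmax
    have hfield : IsField A := IsLocalRing.isField_iff_maximalIdeal_eq.2 hmax.symm
    let := hfield.toField
    exact (inferInstance : Module.Free A M)
  | (n + 1), A, _, _, _, rs, hlen, hreg, hmax, M, _, _, _ => by
    match rs, hlen, hreg, hmax with
    | (x :: rs'), hlen, hreg, hmax =>
      rw [isWeaklyRegular_cons_iff'] at hreg
      obtain ⟨hxA, hreg'⟩ := hreg
      have hxmem : x ∈ maximalIdeal A := by
        rw [← hmax, Ideal.ofList_cons]
        exact Ideal.mem_sup_left (Ideal.mem_span_singleton_self x)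
      have hxj : x ∈ (⊥ : Ideal A).jacobson :=
        IsLocalRing.maximalIdeal_le_jacobson _ hxmem
      have hne : Ideal.span {x} ≠ (⊤ : Ideal A) := by
        intro h
        have : Ideal.span {x} ≤ maximalIdeal A := by
          rw [Ideal.span_singleton_le_iff_mem]; exact hxmem
        exact (maximalIdeal.isMaximal A).ne_top (top_le_iff.1 (h ▸ this))
      have : Nontrivial (A ⧸ Ideal.span {x}) := Ideal.Quotient.nontrivial_iff.2 hne
      have : IsLocalRing (A ⧸ Ideal.span {x}) :=
        IsLocalRing.of_surjective' (Ideal.Quotient.mk _) Ideal.Quotient.mk_surjective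
      have hmax' : Ideal.ofList (rs'.map (Ideal.Quotient.mk (Ideal.span {x}))) =
          maximalIdeal (A ⧸ Ideal.span {x}) := by
        rw [← map_maximalIdeal_of_surjective (Ideal.Quotient.mk (Ideal.span {x}))
          Ideal.Quotient.mk_surjective, ← hmax, Ideal.ofList_cons, Ideal.map_sup,
          ← Ideal.map_ofList, Ideal.map_quotient_self, bot_sup_eq]
      have hregA : IsWeaklyRegular (A ⧸ Ideal.span {x})
          (rs'.map (Ideal.Quotient.mk (Ideal.span {x}))) := by
        have e : QuotSMulTop x A ≃ₗ[A] (A ⧸ Ideal.span {x}) :=
          Submodule.quotEquivOfEq _ _ (by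
            rw [← Submodule.ideal_span_singleton_smul]; simp)
        let e1 : QuotSMulTop x A ≃ₗ[A ⧸ Ideal.span {x}] (A ⧸ Ideal.span {x}) :=
          e.extendScalarsOfSurjective Ideal.Quotient.mk_surjective
        exact (e1.isWeaklyRegular_congr _).1 hreg'
      obtain ⟨k, f, hf⟩ := Module.Finite.exists_fin' A M
      refine ⟨k, f, hf, ?_⟩
      have hregker : IsSMulRegular (LinearMap.ker f) x := by
        intro a b hab
        have h2 : x • (a : Fin k → A) = x • (b : Fin k → A) := congrArg Subtype.val hab
        apply Subtype.ext
        funext i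
        exact hxA (congrFun h2 i)
      refine SyzLE.of_quotSMulTop x hxj hxA n (LinearMap.ker f) hregker ?_
      have : Module.Finite (A ⧸ Ideal.span {x}) (QuotSMulTop x (LinearMap.ker f)) :=
        Module.Finite.of_restrictScalars_finite A _ _
      exact syzLE_of_isWeaklyRegular n (A ⧸ Ideal.span {x})
        (rs'.map (Ideal.Quotient.mk (Ideal.span {x}))) (by simpa using hlen) hregA hmax' _

open CategoryTheory in
theorem SyzLE.hasProjectiveDimensionLE {A : Type u} [CommRing A] : ∀ (m : ℕ)
    (M : Type u) [AddCommGroup M] [Module A M] (_ : SyzLE A m M),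
    HasProjectiveDimensionLE (ModuleCat.of A M) m
  | 0, M, _, _, h => by
    have h' : Module.Free A M := h
    simp only [HasProjectiveDimensionLE, zero_add]
    rw [← projective_iff_hasProjectiveDimensionLT_one, ← IsProjective.iff_projective]
    exact Module.Projective.of_free
  | (m + 1), M, _, _, h => by
    obtain ⟨k, f, hf, hk⟩ := h
    have ih := SyzLE.hasProjectiveDimensionLE m _ hk
    have hS : f.shortComplexKer.ShortExact := LinearMap.shortExact_shortComplexKer hf
    have : Projective (ModuleCat.of A (Fin k → A)) := by
      rw [← IsProjective.iff_projective]; infer_instance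
    exact (hS.hasProjectiveDimensionLT_X₃_iff m this).2 ih

/-- Maximal Cohen-Macaulay modules over a Noetherian local ring whose maximal ideal is generated
by a regular sequence are free. -/
theorem free_of_isWeaklyRegular {A : Type u} [CommRing A] [IsNoetherianRing A] [IsLocalRing A]
    (rs : List A) (hrs : IsWeaklyRegular A rs) (hmax : Ideal.ofList rs = maximalIdeal A)
    (N : Type u) [AddCommGroup N] [Module A N] [Module.Finite A N]
    (ys : List A) (hlen : ys.length = rs.length) (hys : IsWeaklyRegular N ys)
    (hmem : ∀ y ∈ ys, y ∈ maximalIdeal A) : Module.Free A N := by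
  rcases subsingleton_or_nontrivial N with hN | hN
  · infer_instance
  have h1 := ModuleCat.projectiveDimension_quotient_eq_add_length_of_isWeaklyRegular
    (ModuleCat.of A N) ys hys hmem
  have h2 : CategoryTheory.HasProjectiveDimensionLE
      (ModuleCat.of A (N ⧸ Ideal.ofList ys • (⊤ : Submodule A N))) rs.length :=
    SyzLE.hasProjectiveDimensionLE _ _ (syzLE_of_isWeaklyRegular rs.length A rs rfl hrs hmax _)
  rw [← CategoryTheory.projectiveDimension_le_iff] at h2
  have h3 : CategoryTheory.projectiveDimension (ModuleCat.of A N) + ys.length ≤ rs.length := by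
    rw [← h1]; exact h2
  rw [hlen] at h3
  have h4 : CategoryTheory.projectiveDimension (ModuleCat.of A N) ≤ ((0 : ℕ) : WithBot ℕ∞) := by
    have h5 : CategoryTheory.projectiveDimension (ModuleCat.of A N) + (rs.length : WithBot ℕ∞) ≤
        ((0 : ℕ) : WithBot ℕ∞) + (rs.length : WithBot ℕ∞) := by
      simpa using h3
    exact (ENat.WithBot.add_le_add_natCast_right_iff).1 h5
  rw [CategoryTheory.projectiveDimension_le_iff] at h4
  have h5 : CategoryTheory.Projective (ModuleCat.of A N) := by
    rw [CategoryTheory.projective_iff_hasProjectiveDimensionLT_one]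
    exact h4
  rw [← IsProjective.iff_projective] at h5
  have h6 : Module.Projective A N := h5
  exact Module.free_of_flat_of_isLocalRing

end Fermat.Agent.CommAlg
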